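/-
S55 engine E1, leaf ALG11 (helper895), part 1: the algebraic core, for a GENERIC ring `k`
(this avoids the `ℤ`-module diamond) and ABSTRACT presentations.

Setting: `π : G' ↠ G` with kernel `H`, `ν₀ : α' → α` bijective, `P = k[G]^{(α)}`,
`P' = k[G']^{(α')}`, `tP : P' → P` (`g' e_{a'} ↦ π(g') e_{ν₀ a'}`), subrepresentations
`iR : R ↪ P`, `iR' : R' ↪ P'` with `R' = tP⁻¹(R)`, `tR : R' → R` the restriction of `tP`;
`ι : X ↪ X'` semilinear with image `X'^H`; Hilbert 90 for `(H, X')` in cocycle form.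

`exists_primitive` : if `c : G → Hom_k(R, X)` satisfies `c 1 = 0` and
`ι ∘ c(π g') ∘ tR = g' φ - φ` for some `φ ∈ Hom_k(R', X')`, then `c(g) = g ψ - ψ` for some
`ψ ∈ Hom_k(R, X)`.
-/
import Fermat.Agent.S55.E1.SpecAlg3

set_option autoImplicit false
set_option linter.unusedSectionVars false
set_option linter.unusedVariables false

open CategoryTheory CategoryTheory.Limits groupCohomology

namespace Fermat.Agent.S55.E1.H895

noncomputable section

/-! ## Injectivity criterion on `H¹` -/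

section LayerA

variable {k G G' : Type} [CommRing k] [Group G] [Group G'] (π : G' →* G)
variable {M : Rep.{0} k G} {M' : Rep.{0} k G'} (Φ : Rep.res π M ⟶ M')

/-- Injectivity criterion for `H¹(G, M) → H¹(G', M')` in terms of cocycles. -/
theorem map_one_injective_of
    (h : ∀ (c : cocycles₁ M) (m' : M'.V),
      (∀ g' : G', Φ.hom (c (π g')) = M'.ρ g' m' - m') →
      ∃ m : M.V, ∀ g : G, c g = M.ρ g m - m) :
    Function.Injective (groupCohomology.map π Φ 1).hom := by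
  rw [injective_iff_map_eq_zero]
  intro x hx
  induction x using H1_induction_on with | @h c =>
  rw [H1π_comp_map_apply] at hx
  obtain ⟨m', hm'⟩ := (H1π_eq_zero_iff _).1 hx
  obtain ⟨m, hm⟩ := h c m' (fun g' => by
    have := congrFun hm' g'
    rw [coe_mapCocycles₁] at this
    exact this.symm)
  refine (H1π_eq_zero_iff _).2 ⟨m, ?_⟩
  funext g
  exact (hm g).symm

end LayerA

/-! ## The basis of a free module `k[G]^{(α)}` -/

section FreeBasis

variable {k G α V : Type} [CommRing k] [Group G] [AddCommGroup V] [Module k V]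

/-- The basis element `g • e_a` of `k[G]^{(α)}`. -/
def bas (k : Type) [CommRing k] {G α : Type} [Group G] (a : α) (g : G) : (Rep.free k G α).V :=
  Finsupp.single a (MonoidAlgebra.single g (1 : k))

/-- The `k`-linear map out of `k[G]^{(α)}` with prescribed values on the basis `g • e_a`. -/
def basLift (v : α → G → V) : (Rep.free k G α).V →ₗ[k] V :=
  Finsupp.linearCombination k (fun x : α × G => v x.1 x.2) ∘ₗ
    (Finsupp.curryLinearEquiv k).symm.toLinearMap ∘ₗ
    Finsupp.mapRange.linearMap (MonoidAlgebra.coeffLinearEquiv _).toLinearMap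

lemma basLift_bas (v : α → G → V) (a : α) (g : G) : basLift v (bas k a g) = v a g := by
  simp [basLift, bas]

lemma free_ρ_bas (g h : G) (a : α) : (Rep.free k G α).ρ g (bas k a h) = bas k a (g * h) := by
  simp [bas]

/-- Linear maps out of `k[G]^{(α)}` agree if they agree on the basis. -/
lemma linearMap_ext_bas {f₁ f₂ : (Rep.free k G α).V →ₗ[k] V}
    (h : ∀ a g, f₁ (bas k a g) = f₂ (bas k a g)) : f₁ = f₂ := by
  ext a g
  simpa [bas] using h a g

lemma freeLift_bas (A : Rep.{0} k G) (x : α → A.V) (a : α) (g : G) :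
    (Rep.freeLift k G A x).hom (bas k a g) = A.ρ g (x a) := by
  simp [bas]

end FreeBasis

/-! ## The core lemma -/

section Core

variable {k G G' α α' : Type} [CommRing k] [Group G] [Group G'] (π : G' →* G)
variable (ν₀ : α' → α)

/-- `tP : P' → P`, `g' e_{a'} ↦ π(g') e_{ν₀ a'}`. -/
def tP : Rep.free k G' α' ⟶ Rep.res π (Rep.free k G α) :=
  Rep.freeLift k G' (Rep.res π (Rep.free k G α)) (fun a' => bas k (ν₀ a') 1)

lemma tP_bas (a' : α') (g' : G') :
    (tP (k := k) π ν₀).hom (bas k a' g') = bas k (ν₀ a') (π g') := by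
  unfold tP
  rw [freeLift_bas]
  change (Rep.free k G α).ρ (π g') (bas k (ν₀ a') 1) = _
  rw [free_ρ_bas, mul_one]

variable {R X : Rep.{0} k G} {R' X' : Rep.{0} k G'}
variable (iR : R ⟶ Rep.free k G α) (iR' : R' ⟶ Rep.free k G' α')
variable (tR : R' ⟶ Rep.res π R) (ι : Rep.res π X ⟶ X')

lemma res_ρ_apply {A : Rep.{0} k G} (g' : G') (x : A.V) :
    (Rep.res π A).ρ g' x = A.ρ (π g') x := rfl

theorem exists_primitive
    (hπ : Function.Surjective π) (hν : Function.Bijective ν₀)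
    (hiR : Function.Injective iR.hom) (hiR' : Function.Injective iR'.hom)
    (hsq : ∀ r' : R'.V, iR.hom (tR.hom r') = (tP (k := k) π ν₀).hom (iR'.hom r'))
    (hpre : ∀ y' : (Rep.free k G' α').V,
      (∃ r : R.V, iR.hom r = (tP (k := k) π ν₀).hom y') → ∃ r' : R'.V, iR'.hom r' = y')
    (hι : Function.Injective ι.hom)
    (hinv : ∀ x' : X'.V, (∀ h ∈ π.ker, X'.ρ h x' = x') → ∃ x : X.V, ι.hom x = x')
    (h90 : ∀ z : π.ker → X'.V, (∀ h₁ h₂ : π.ker, z (h₁ * h₂) = X'.ρ h₁ (z h₂) + z h₁) →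
      ∃ x' : X'.V, ∀ h : π.ker, z h = X'.ρ h x' - x')
    (c : G → (R.V →ₗ[k] X.V)) (hc1 : c 1 = 0) (φ : R'.V →ₗ[k] X'.V)
    (hφ : ∀ (g' : G') (r' : R'.V),
      ι.hom (c (π g') (tR.hom r')) = X'.ρ g' (φ (R'.ρ g'⁻¹ r')) - φ r') :
    ∃ ψ : R.V →ₗ[k] X.V, ∀ (g : G) (r : R.V), c g r = X.ρ g (ψ (R.ρ g⁻¹ r)) - ψ r := by
  classical
  -- equivariance facts
  have etR : ∀ (g' : G') (r' : R'.V), tR.hom (R'.ρ g' r') = R.ρ (π g') (tR.hom r') :=
    fun g' r' => Rep.hom_comm_apply tR g' r'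
  have eι : ∀ (g' : G') (x : X.V), ι.hom (X.ρ (π g') x) = X'.ρ g' (ι.hom x) :=
    fun g' x => Rep.hom_comm_apply ι g' x
  have eiR' : ∀ (g' : G') (r' : R'.V), iR'.hom (R'.ρ g' r') =
      (Rep.free k G' α').ρ g' (iR'.hom r') := fun g' r' => Rep.hom_comm_apply iR' g' r'
  -- Step 1: `φ` is `H`-equivariant
  have s1 : ∀ h ∈ π.ker, ∀ r' : R'.V, φ (R'.ρ h r') = X'.ρ h (φ r') := by
    intro h hh r'
    have := hφ h (R'.ρ h r')
    rw [MonoidHom.mem_ker.1 hh, hc1, LinearMap.zero_apply, map_zero] at this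
    have h2 : R'.ρ h⁻¹ (R'.ρ h r') = r' := by
      rw [← Module.End.mul_apply, ← map_mul, inv_mul_cancel, map_one]
      rfl
    rw [h2] at this
    exact (sub_eq_zero.1 this.symm).symm
  -- Step 2: the elements `w h a' = (h - 1) e_{a'} ∈ R'` and the cocycles `z a'`
  have hw : ∀ (h : π.ker) (a' : α'), ∃ r' : R'.V,
      iR'.hom r' = bas k a' (h : G') - bas k a' 1 := by
    intro h a'
    refine hpre _ ⟨0, ?_⟩
    rw [map_zero, map_sub, tP_bas, tP_bas, MonoidHom.mem_ker.1 h.2, map_one, sub_self]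
  choose w hw using hw
  have htRw : ∀ (h : π.ker) (a' : α'), tR.hom (w h a') = 0 := by
    intro h a'
    apply hiR
    rw [hsq, hw, map_zero, map_sub, tP_bas, tP_bas, MonoidHom.mem_ker.1 h.2, map_one, sub_self]
  have hwmul : ∀ (h₁ h₂ : π.ker) (a' : α'),
      w (h₁ * h₂) a' = R'.ρ h₁ (w h₂ a') + w h₁ a' := by
    intro h₁ h₂ a'
    apply hiR'
    rw [map_add, eiR', hw, hw, hw, map_sub, free_ρ_bas, free_ρ_bas, mul_one]
    change bas k a' ((h₁ : G') * (h₂ : G')) - bas k a' 1 = _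
    abel
  have hz : ∀ a' : α', ∃ x' : X'.V, ∀ h : π.ker, φ (w h a') = X'.ρ h x' - x' := by
    intro a'
    refine h90 (fun h => φ (w h a')) ?_
    intro h₁ h₂
    rw [hwmul, map_add, s1 _ h₁.2]
  choose x hx using hz
  -- Step 3: correct `φ` by the `G'`-map `θ : P' → X'`, `e_{a'} ↦ x a'`
  let θ : Rep.free k G' α' ⟶ X' := Rep.freeLift k G' X' x
  have hθ : ∀ (a' : α') (g' : G'), θ.hom (bas k a' g') = X'.ρ g' (x a') :=
    fun a' g' => freeLift_bas X' x a' g'
  have eθ : ∀ (g' : G') (y : (Rep.free k G' α').V),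
      θ.hom ((Rep.free k G' α').ρ g' y) = X'.ρ g' (θ.hom y) :=
    fun g' y => Rep.hom_comm_apply θ g' y
  let φ₁ : R'.V →ₗ[k] X'.V := φ - θ.hom.toLinearMap ∘ₗ iR'.hom.toLinearMap
  have hφ₁ : ∀ r' : R'.V, φ₁ r' = φ r' - θ.hom (iR'.hom r') := fun r' => rfl
  have s3a : ∀ (h : π.ker) (a' : α'), φ₁ (w h a') = 0 := by
    intro h a'
    rw [hφ₁, hw, map_sub, hθ, hθ, map_one, hx]
    simp
  have s3b : ∀ (g' : G') (r' : R'.V),
      ι.hom (c (π g') (tR.hom r')) = X'.ρ g' (φ₁ (R'.ρ g'⁻¹ r')) - φ₁ r' := by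
    intro g' r'
    rw [hφ₁, hφ₁, hφ g' r', map_sub, eiR', eθ, ← Module.End.mul_apply, ← map_mul,
      mul_inv_cancel, map_one]
    simp
  have s3c : ∀ (g' : G') (r' : R'.V), tR.hom r' = 0 → φ₁ (R'.ρ g' r') = X'.ρ g' (φ₁ r') := by
    intro g' r' hr'
    have := s3b g' (R'.ρ g' r')
    rw [etR, hr', map_zero, map_zero, map_zero] at this
    have h2 : R'.ρ g'⁻¹ (R'.ρ g' r') = r' := by
      rw [← Module.End.mul_apply, ← map_mul, inv_mul_cancel, map_one]
      rfl
    rw [h2] at this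
    exact (sub_eq_zero.1 this.symm).symm
  -- Step 4: a section of `tP` and the map `D : P' → R'`, `y ↦ y - σ (tP y)`
  let s : G → G' := Function.surjInv hπ
  have hs : ∀ g, π (s g) = g := Function.surjInv_eq hπ
  let νi : α → α' := Function.surjInv hν.2
  have hνi : ∀ a, ν₀ (νi a) = a := Function.surjInv_eq hν.2
  have hνi' : ∀ a', νi (ν₀ a') = a' := fun a' => hν.1 (hνi (ν₀ a'))
  let σ : (Rep.free k G α).V →ₗ[k] (Rep.free k G' α').V :=
    basLift (fun a g => bas k (νi a) (s g))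
  have hσ : ∀ a g, σ (bas k a g) = bas k (νi a) (s g) := fun a g => basLift_bas _ a g
  have hker : ∀ g' : G', (s (π g'))⁻¹ * g' ∈ π.ker := by
    intro g'
    rw [MonoidHom.mem_ker, map_mul, map_inv, hs, inv_mul_cancel]
  let D : (Rep.free k G' α').V →ₗ[k] R'.V :=
    basLift (fun a' g' => R'.ρ (s (π g')) (w ⟨(s (π g'))⁻¹ * g', hker g'⟩ a'))
  have hD : ∀ a' g', D (bas k a' g') = R'.ρ (s (π g')) (w ⟨(s (π g'))⁻¹ * g', hker g'⟩ a') :=
    fun a' g' => basLift_bas _ a' g'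
  have hDi : ∀ y : (Rep.free k G' α').V,
      iR'.hom (D y) = y - σ ((tP (k := k) π ν₀).hom y) := by
    intro y
    have : iR'.hom.toLinearMap ∘ₗ D =
        LinearMap.id - σ ∘ₗ (tP (k := k) π ν₀).hom.toLinearMap := by
      apply linearMap_ext_bas
      intro a' g'
      change iR'.hom (D (bas k a' g')) = bas k a' g' - σ ((tP (k := k) π ν₀).hom (bas k a' g'))
      rw [hD, eiR', hw, map_sub, free_ρ_bas, free_ρ_bas, tP_bas, hσ, hνi', mul_one]
      change bas k a' (s (π g') * ((s (π g'))⁻¹ * g')) - _ = _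
      rw [mul_inv_cancel_left]
    exact LinearMap.congr_fun this y
  have hφD : ∀ y : (Rep.free k G' α').V, φ₁ (D y) = 0 := by
    intro y
    have : φ₁ ∘ₗ D = 0 := by
      apply linearMap_ext_bas
      intro a' g'
      change φ₁ (D (bas k a' g')) = 0
      rw [hD, s3c _ _ (htRw _ _), s3a, map_zero]
    exact LinearMap.congr_fun this y
  have hkill : ∀ r' : R'.V, tR.hom r' = 0 → φ₁ r' = 0 := by
    intro r' hr'
    have h1 : D (iR'.hom r') = r' := by
      apply hiR'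
      rw [hDi, ← hsq, hr', map_zero, map_zero, sub_zero]
    rw [← h1, hφD]
  -- Step 5: a linear section `ρsec` of `tR` and `ψ' = φ₁ ∘ ρsec`
  have htPσ : ∀ y : (Rep.free k G α).V, (tP (k := k) π ν₀).hom (σ y) = y := by
    intro y
    have : (tP (k := k) π ν₀).hom.toLinearMap ∘ₗ σ = LinearMap.id := by
      apply linearMap_ext_bas
      intro a g
      change (tP (k := k) π ν₀).hom (σ (bas k a g)) = bas k a g
      rw [hσ, tP_bas, hνi, hs]
    exact LinearMap.congr_fun this y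
  have hmem : ∀ r : R.V, σ (iR.hom r) ∈ LinearMap.range iR'.hom.toLinearMap := by
    intro r
    obtain ⟨r', hr'⟩ := hpre (σ (iR.hom r)) ⟨r, (htPσ _).symm⟩
    exact ⟨r', hr'⟩
  let e := LinearEquiv.ofInjective iR'.hom.toLinearMap hiR'
  let ρsec : R.V →ₗ[k] R'.V :=
    e.symm.toLinearMap ∘ₗ
      (σ ∘ₗ iR.hom.toLinearMap).codRestrict (LinearMap.range iR'.hom.toLinearMap) hmem
  have hρsec : ∀ r : R.V, iR'.hom (ρsec r) = σ (iR.hom r) := by
    intro r
    have := e.apply_symm_apply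
      ((σ ∘ₗ iR.hom.toLinearMap).codRestrict (LinearMap.range iR'.hom.toLinearMap) hmem r)
    exact congrArg Subtype.val this
  have htRρ : ∀ r : R.V, tR.hom (ρsec r) = r := by
    intro r
    apply hiR
    rw [hsq, hρsec, htPσ]
  let ψ' : R.V →ₗ[k] X'.V := φ₁ ∘ₗ ρsec
  have hψ' : ∀ r' : R'.V, ψ' (tR.hom r') = φ₁ r' := by
    intro r'
    have h1 : φ₁ (r' - ρsec (tR.hom r')) = 0 := by
      apply hkill
      rw [map_sub, htRρ, sub_self]
    rw [map_sub, sub_eq_zero] at h1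
    exact h1.symm
  -- Step 6: the values of `ψ'` are `H`-invariant
  have s6 : ∀ (r : R.V), ∀ h ∈ π.ker, X'.ρ h (ψ' r) = ψ' r := by
    intro r h hh
    have h1 := s3b h (ρsec r)
    rw [MonoidHom.mem_ker.1 hh, hc1, LinearMap.zero_apply, map_zero] at h1
    have h2 : φ₁ (R'.ρ h⁻¹ (ρsec r)) = ψ' r := by
      rw [← hψ', etR, htRρ, map_inv, MonoidHom.mem_ker.1 hh, inv_one, map_one]
      rfl
    rw [h2] at h1
    have h3 : φ₁ (ρsec r) = ψ' r := rfl
    rw [h3] at h1
    exact sub_eq_zero.1 h1.symm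
  -- Step 7: `ψ' = ι ∘ ψ`
  have hmemι : ∀ r : R.V, ψ' r ∈ LinearMap.range ι.hom.toLinearMap := by
    intro r
    obtain ⟨x, hx⟩ := hinv (ψ' r) (s6 r)
    exact ⟨x, hx⟩
  let eι' := LinearEquiv.ofInjective ι.hom.toLinearMap hι
  let ψ : R.V →ₗ[k] X.V :=
    eι'.symm.toLinearMap ∘ₗ ψ'.codRestrict (LinearMap.range ι.hom.toLinearMap) hmemι
  have hψ : ∀ r : R.V, ι.hom (ψ r) = ψ' r := by
    intro r
    have := eι'.apply_symm_apply (ψ'.codRestrict (LinearMap.range ι.hom.toLinearMap) hmemι r)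
    exact congrArg Subtype.val this
  -- Step 8: `c = dψ`
  refine ⟨ψ, ?_⟩
  intro g r
  obtain ⟨g', rfl⟩ := hπ g
  apply hι
  have h1 := s3b g' (ρsec r)
  rw [htRρ] at h1
  rw [h1, map_sub, eι, hψ, hψ, ← hψ', ← hψ' (ρsec r), etR, htRρ, map_inv]

end Core

end

end Fermat.Agent.S55.E1.H895
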