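/-
S55 engine E1, leaf **ALG11 (local injectivity)** — helper895.   `theorem alg11 : ALG11Spec`.

`π : G' ↠ G` with kernel `H`, `N' ≅ res_π N`, `ι : X → X'` injective with image `X'^H`,
`H¹(H, X') = 0`  ⇒  `tr : 𝔈²_G(X) → 𝔈²_{G'}(X')` is injective.
Proof: cocycle argument of `coord/S55-E1-ALG911.md` (core: `Alg11Core.exists_primitive`).
-/
import Fermat.Agent.S55.E1.H895.Alg11Core
import Fermat.Agent.S55.E1.H304.Alg1

set_option autoImplicit false
set_option linter.unusedSectionVars false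
set_option linter.unusedVariables false

open CategoryTheory CategoryTheory.Limits groupCohomology

namespace Fermat.Agent.S55.E1.H895

noncomputable section

variable {G G' : Type} [Group G] [Group G']

lemma tP_eq_trP (π : G' →* G) {N : Rep.{0} ℤ G} {N' : Rep.{0} ℤ G'} (ν : N' ⟶ Rep.res π N) :
    tP (k := ℤ) π (fun n' : N'.V => ν.hom n') = trP π ν := rfl

/-- Hilbert 90 in cocycle form from the vanishing of `H¹`. -/
lemma h90_of_isZero {k : Type} [CommRing k] (X' : Rep.{0} k G') (H : Subgroup G')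
    (h : IsZero (groupCohomology (Rep.res H.subtype X') 1))
    (z : H → X'.V) (hz : ∀ h₁ h₂ : H, z (h₁ * h₂) = X'.ρ h₁ (z h₂) + z h₁) :
    ∃ x' : X'.V, ∀ h : H, z h = X'.ρ h x' - x' := by
  have hmem : z ∈ cocycles₁ (Rep.res H.subtype X') :=
    (mem_cocycles₁_iff (A := Rep.res H.subtype X') z).2 hz
  have h0 : H1π (Rep.res H.subtype X') ⟨z, hmem⟩ = 0 := by
    have := (ModuleCat.isZero_iff_subsingleton.1 h)
    exact Subsingleton.elim _ _
  obtain ⟨x', hx'⟩ := (H1π_eq_zero_iff _).1 h0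
  exact ⟨x', fun h => (congrFun hx' h).symm⟩

/-- Extensionality for elements of `Hom_k(R, X)` (generic `k`). -/
lemma ihom_ext_lin {k : Type} [CommRing k] {R X : Rep.{0} k G}
    {φ ψ : ((Rep.ihom R).obj X).V}
    (h : ∀ r : R.V, Fermat.Agent.S55.T.H719.ihomLin φ r = Fermat.Agent.S55.T.H719.ihomLin ψ r) :
    φ = ψ :=
  LinearMap.ext h

/-- `R' = ρ⁻¹(R)`: an element of `P'` whose image in `P` lies in `R` lies in `R'`
(`ν` injective). -/
lemma exists_stdι_of_trP (π : G' →* G) {N : Rep.{0} ℤ G} {N' : Rep.{0} ℤ G'}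
    (ν : N' ⟶ Rep.res π N) (hν : Function.Injective ν.hom) (y' : (stdP N').V)
    (h : ∃ r : (stdR N).V, (stdι N).hom r = (trP π ν).hom y') :
    ∃ r' : (stdR N').V, (stdι N').hom r' = y' := by
  obtain ⟨r, hr⟩ := h
  have hex := (Fermat.Agent.S55.T.H719.rep_shortExact_iff (stdSC N')).1 (stdSC_shortExact N')
  have hex0 := (Fermat.Agent.S55.T.H719.rep_shortExact_iff (stdSC N)).1 (stdSC_shortExact N)
  refine hex.2.2 y' ?_
  apply hν
  have h1 : ν.hom ((stdε N').hom y') = (stdε N).hom ((trP π ν).hom y') :=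
    (trP_stdε_apply π ν y').symm
  change ν.hom ((stdε N').hom y') = ν.hom 0
  rw [h1, ← hr, map_zero]
  have h2 : stdι N ≫ stdε N = 0 := (stdSC N).zero
  exact congrArg (fun t => t.hom r) h2

/-- **ALG11** (local injectivity). -/
theorem alg11 : ALG11Spec := by
  intro G G' _ _ _ π hπ N N' ν X X' ι hι hinv hH90
  have hνbij : Function.Bijective (fun n' : N'.V => ν.hom.hom n') := by
    constructor
    · intro a b hab
      have := congrArg (fun t => ν.inv.hom t) hab
      simpa using this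
    · intro b
      exact ⟨ν.inv.hom b, by simp⟩
  unfold trE2
  apply map_one_injective_of
  intro c m' hm'
  obtain ⟨ψ, hψ⟩ := exists_primitive (k := ℤ) π (fun n' : N'.V => ν.hom.hom n')
    (stdι N) (stdι N') (trR π ν.hom) ι hπ hνbij
    (Fermat.Agent.S55.E1.H304.stdι_injective N) (Fermat.Agent.S55.E1.H304.stdι_injective N')
    (fun r' => trR_stdι_apply π ν.hom r')
    (fun y' hy' => exists_stdι_of_trP π ν.hom hνbij.1 y' hy')
    hι hinv (h90_of_isZero X' π.ker hH90)
    (fun g => Fermat.Agent.S55.T.H719.ihomLin (c g)) (cocycles₁_map_one c)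
    (Fermat.Agent.S55.T.H719.ihomLin m')
    (fun g' r' => by
      have := congrArg (fun t : ((Rep.ihom (stdR N')).obj X').V =>
        Fermat.Agent.S55.T.H719.ihomLin t r') (hm' g')
      exact this)
  refine ⟨Fermat.Agent.S55.T.H719.ihomMk ψ, fun g => ?_⟩
  exact ihom_ext_lin (fun r => hψ g r)

end

end Fermat.Agent.S55.E1.H895
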