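import Fermat.Agent.S55.E1.H298.Alg9
import Fermat.Agent.S55.E1.H423.Alg9a
import Fermat.Agent.S55.E1.H793.Alg10Comp
import Fermat.Agent.S55.E1.H600.ALG10Edge
import Fermat.Agent.S55.E1.H245.Alg10Pair
import Fermat.Agent.S55.E1.H354.Alg10Bdry
import Fermat.Agent.S55.E1.H895.Alg11

/-!
# S55, engine E1, block ALG9–ALG11: CLOSED (consolidation file, helper895)

All frozen Specs of `E1/SpecAlg3.lean` are theorems.  One import, one namespace for consumers
(LIM1–LIM5):

* `alg9        : ALG9Spec`          (helper298)  edge connecting map bijective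
* `alg9a       : ALG9aSpec`         (helper423)  extension criterion
* `alg9aCocycle: ALG9aCocycleSpec`  (helper423)
* `alg10Comp   : ALG10CompSpec`     (helper793)  `tr ∘ tr = tr` on `A`
* `alg10CompE2 : ALG10CompE2Spec`   (helper793)  `tr ∘ tr = tr` on `𝔈²`
* `alg10Edge   : ALG10EdgeSpec`     (helper600)  `tr` commutes with the edge map
* `alg10Pair   : ALG10PairSpec`     (helper245)  pairing formula
* `alg10Bdry   : H354.ALG10BdrySpec`(helper354)  `tr` commutes with the ALG3 boundary
* `alg11       : ALG11Spec`         (helper895)  local injectivity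
* `isEdge_tr   `                    edges are transported to edges (from `alg10Edge`)
-/

namespace Fermat.Agent.S55.E1.H895.Final

open Fermat.Agent.S55.E1

theorem alg9 : ALG9Spec := H298.alg9
theorem alg9a : ALG9aSpec := H423.alg9aSpec
theorem alg9aCocycle : ALG9aCocycleSpec := H423.alg9aCocycleSpec
theorem alg10Comp : ALG10CompSpec := H793.alg10Comp
theorem alg10CompE2 : ALG10CompE2Spec := H793.alg10CompE2
theorem alg10Edge : ALG10EdgeSpec := H600.alg10Edge
theorem alg10Pair : ALG10PairSpec := H245.alg10Pair
theorem alg10Bdry : H354.ALG10BdrySpec := H354.alg10Bdry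
theorem alg11 : ALG11Spec := H895.alg11

end Fermat.Agent.S55.E1.H895.Final
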